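import Mathlib.RingTheory.AdjoinRoot
import Mathlib.RingTheory.Polynomial.Cyclotomic.Roots
import Mathlib.RingTheory.Polynomial.Cyclotomic.Eval
import Mathlib.LinearAlgebra.Matrix.ToLinearEquiv
import Mathlib.Algebra.Polynomial.Derivative
import Mathlib.Algebra.Field.ZMod
import Mathlib.Algebra.Polynomial.FieldDivision
import Mathlib.RingTheory.UniqueFactorizationDomain.Basic
import Mathlib.RingTheory.Polynomial.UniqueFactorization

/-!
# Chebotarev's theorem on minors of the matrix of roots of unity

Frenkel's proof. A nonzero polynomial over a field of characteristic `p`, of degree less than `p`,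
vanishes at a nonzero point to order less than its number of terms. A vector in the kernel of a
minor, reduced modulo `1 - ζ`, would contradict this at the point `1`.
-/

set_option autoImplicit false

noncomputable section

open Polynomial

namespace Fermat.Agent.ChebotarevMinors

/-- The multiplicity of a nonzero root is less than the number of terms, in small degree. -/
theorem lt_card_support_of_pow_dvd {F : Type*} [Field F] (p : ℕ) [CharP F p] {a : F} (ha : a ≠ 0) :
    ∀ (s m : ℕ) (g : F[X]), g.support.card ≤ s → g ≠ 0 → g.natDegree < p →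
      (X - C a) ^ m ∣ g → m < g.support.card := by
  intro s
  induction s with
  | zero =>
    intro m g hs hg
    exact absurd (support_eq_empty.1 (Finset.card_eq_zero.1 (Nat.le_zero.1 hs))) hg
  | succ s ih =>
    intro m g hs hg hdeg hm
    obtain ⟨k, hk⟩ := support_nonempty.2 hg
    set h : F[X] := X * derivative g - C (k : F) * g with hh
    have hcoeff : ∀ i, h.coeff i = ((i : F) - (k : F)) * g.coeff i := by
      intro i
      rcases i with _ | i
      · simp [hh]
      · rw [hh, coeff_sub, coeff_X_mul, coeff_derivative, coeff_C_mul]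
        push_cast
        ring
    have hsupp : h.support = g.support.erase k := by
      ext i
      simp only [mem_support_iff, Finset.mem_erase, hcoeff, ne_eq, mul_eq_zero, not_or,
        sub_eq_zero]
      refine ⟨fun ⟨h1, h2⟩ => ⟨fun e => h1 (by rw [e]), h2⟩, fun ⟨h1, h2⟩ => ⟨fun e => h1 ?_, h2⟩⟩
      have hi : i < p := (le_natDegree_of_ne_zero h2).trans_lt hdeg
      have hk' : k < p := (le_natDegree_of_ne_zero (mem_support_iff.1 hk)).trans_lt hdeg
      have := (CharP.natCast_eq_natCast F p).1 e
      rwa [Nat.ModEq, Nat.mod_eq_of_lt hi, Nat.mod_eq_of_lt hk'] at this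
    have hcard : h.support.card = g.support.card - 1 := by
      rw [hsupp, Finset.card_erase_of_mem hk]
    have hpos : 0 < g.support.card := Finset.card_pos.2 ⟨k, hk⟩
    by_cases h0 : h = 0
    · rcases Nat.eq_zero_or_pos m with rfl | hm0
      · exact hpos
      · exfalso
        have hroot : g.eval a = 0 :=
          (dvd_iff_isRoot.1 ((dvd_pow_self _ hm0.ne').trans hm) :)
        have hone : g.support = {k} := by
          have he : g.support.erase k = ∅ := by rw [← hsupp, h0, support_zero]
          rw [← Finset.insert_erase hk, he]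
          simp
        have e : g = C (g.coeff k) * X ^ k := by
          conv_lhs => rw [g.as_sum_support, hone, Finset.sum_singleton, ← C_mul_X_pow_eq_monomial]
        rw [e, eval_mul, eval_C, eval_pow, eval_X] at hroot
        exact mul_ne_zero (mem_support_iff.1 hk) (pow_ne_zero _ ha) hroot
    · have hdvd : (X - C a) ^ (m - 1) ∣ h :=
        dvd_sub (dvd_mul_of_dvd_right (pow_sub_one_dvd_derivative_of_pow_dvd hm) _)
          (dvd_mul_of_dvd_right ((pow_dvd_pow _ (Nat.sub_le m 1)).trans hm) _)
      have hdeg' : h.natDegree < p := by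
        refine lt_of_le_of_lt (natDegree_le_iff_coeff_eq_zero.2 fun i hi => ?_) hdeg
        rw [hcoeff, coeff_eq_zero_of_natDegree_lt hi, mul_zero]
      have := ih (m - 1) h (by omega) h0 hdeg' hdvd
      omega

section Cyclotomic

variable (p : ℕ) [Fact p.Prime]

/-- The ring `ℤ[ζ]`. -/
abbrev CycloRing : Type := AdjoinRoot (cyclotomic p ℤ)

instance cycloRing_isDomain : IsDomain (CycloRing p) :=
  AdjoinRoot.isDomain_of_prime (cyclotomic.irreducible (Fact.out : p.Prime).pos).prime

/-- Reduction modulo the prime above `p`. -/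
def reduce : CycloRing p →+* ZMod p :=
  AdjoinRoot.lift (Int.castRingHom (ZMod p)) 1
    (by rw [← eval_map, map_cyclotomic, eval_one_cyclotomic_prime, ZMod.natCast_self])

theorem reduce_root : reduce p (AdjoinRoot.root _) = 1 := AdjoinRoot.lift_root _

theorem root_sub_one_dvd {x : CycloRing p} (hx : reduce p x = 0) :
    AdjoinRoot.root (cyclotomic p ℤ) - 1 ∣ x := by
  obtain ⟨P, rfl⟩ := AdjoinRoot.mk_surjective x
  have h1 : AdjoinRoot.root (cyclotomic p ℤ) - 1 = AdjoinRoot.mk (cyclotomic p ℤ) (X - C 1) := by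
    simp
  have hp : (p : ℤ) ∣ P.eval 1 := by
    rw [reduce, AdjoinRoot.lift_mk, ← eval_map] at hx
    rw [← ZMod.intCast_zmod_eq_zero_iff_dvd, ← hx, ← map_one (Int.castRingHom (ZMod p)),
      eval_map_apply]
    simp
  obtain ⟨t, ht⟩ := hp
  rw [h1, ← sub_add_cancel P (C (P.eval 1)), map_add]
  refine dvd_add (map_dvd _ X_sub_C_dvd_sub_C_eval) ?_
  rw [ht, C_mul, map_mul]
  refine dvd_mul_of_dvd_left ?_ _
  have h2 : C (p : ℤ) = C ((cyclotomic p ℤ).eval 1) := by rw [eval_one_cyclotomic_prime]
  have h3 : AdjoinRoot.mk (cyclotomic p ℤ) (C ((cyclotomic p ℤ).eval 1)) =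
      -AdjoinRoot.mk (cyclotomic p ℤ) (cyclotomic p ℤ - C ((cyclotomic p ℤ).eval 1)) := by simp
  rw [h2, h3, dvd_neg]
  exact map_dvd _ X_sub_C_dvd_sub_C_eval

/-- A vector in the kernel may be taken nonzero modulo the prime above `p`. -/
theorem exists_reduce_ne_zero {ι : Type*} [Fintype ι] (M : Matrix ι ι (CycloRing p))
    {v : ι → CycloRing p} (hv : v ≠ 0) (hM : M.mulVec v = 0) :
    ∃ w : ι → CycloRing p, M.mulVec w = 0 ∧ ∃ j, reduce p (w j) ≠ 0 := by
  obtain ⟨j, hj⟩ := Function.ne_iff.1 hv
  have hwf : WellFounded (DvdNotUnit : CycloRing p → CycloRing p → Prop) := wellFounded_dvdNotUnit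
  obtain ⟨x, ⟨w, hw, rfl, hw0⟩, hmin⟩ := hwf.has_min
    {x | ∃ w : ι → CycloRing p, M.mulVec w = 0 ∧ w j = x ∧ x ≠ 0} ⟨v j, v, hM, rfl, hj⟩
  by_contra hno
  push Not at hno
  set π : CycloRing p := AdjoinRoot.root (cyclotomic p ℤ) - 1 with hπ
  have hall : ∀ i, ∃ u, w i = π * u := fun i => root_sub_one_dvd p (hno w hw i)
  choose u hu using hall
  have hπ0 : π ≠ 0 := fun e => hw0 (by rw [hu j, e, zero_mul])
  have hker : M.mulVec u = 0 := by
    have e : w = π • u := funext hu
    rw [e, Matrix.mulVec_smul] at hw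
    exact (smul_eq_zero.1 hw).resolve_left hπ0
  have hu0 : u j ≠ 0 := fun e => hw0 (by rw [hu j, e, mul_zero])
  refine hmin (u j) ⟨u, hker, rfl, hu0⟩ ⟨hu0, π, ?_, by rw [hu j, mul_comm]⟩
  intro hunit
  have := hunit.map (reduce p)
  rw [hπ, map_sub, reduce_root, map_one, sub_self] at this
  exact not_isUnit_zero this

variable {K : Type*} [Field K] [CharZero K]

/-- **Chebotarev**: all minors of the matrix of `p`th roots of unity are nonzero. -/
theorem det_minor_ne_zero {ζ : K} (hζ : IsPrimitiveRoot ζ p) {ι : Type*} [Fintype ι]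
    [DecidableEq ι] {a b : ι → ZMod p} (ha : Function.Injective a) (hb : Function.Injective b) :
    (Matrix.of fun i j => ζ ^ (a i * b j).val).det ≠ 0 := by
  classical
  intro hdet
  have hmin : cyclotomic p ℤ = minpoly ℤ ζ := cyclotomic_eq_minpoly hζ (Fact.out : p.Prime).pos
  let e : CycloRing p →+* K := AdjoinRoot.lift (Int.castRingHom K) ζ (by
    rw [hmin, ← algebraMap_int_eq, ← aeval_def, minpoly.aeval])
  have he : Function.Injective e := by
    rw [injective_iff_map_eq_zero]
    intro x hx
    obtain ⟨P, rfl⟩ := AdjoinRoot.mk_surjective x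
    rw [AdjoinRoot.lift_mk, ← algebraMap_int_eq, ← aeval_def] at hx
    rw [AdjoinRoot.mk_eq_zero, hmin]
    exact minpoly.isIntegrallyClosed_dvd (hζ.isIntegral (Fact.out : p.Prime).pos) hx
  set r : CycloRing p := AdjoinRoot.root (cyclotomic p ℤ)
  have her : e r = ζ := AdjoinRoot.lift_root _
  set M : Matrix ι ι (CycloRing p) := Matrix.of fun i j => (r ^ (a i).val) ^ (b j).val
  have hM : M.det = 0 := by
    apply he
    rw [map_zero, RingHom.map_det, ← hdet]
    congr 1
    ext i j
    simp only [RingHom.mapMatrix_apply, Matrix.map_apply, M, Matrix.of_apply, map_pow, her]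
    rw [← pow_mul, ZMod.val_mul]
    exact pow_eq_pow_mod _ hζ.pow_eq_one
  obtain ⟨v, hv, hMv⟩ := Matrix.exists_mulVec_eq_zero_iff.2 hM
  obtain ⟨w, hw, j, hj⟩ := exists_reduce_ne_zero p M hv hMv
  set G : (CycloRing p)[X] := ∑ j, C (w j) * X ^ (b j).val with hG
  have hbinj : Function.Injective fun j => (b j).val := fun x y h => hb (ZMod.val_injective p h)
  have hcoeff : ∀ j, G.coeff (b j).val = w j := by
    intro j
    simp only [hG, finsetSum_coeff, coeff_C_mul, coeff_X_pow, mul_ite, mul_one, mul_zero]
    rw [Finset.sum_eq_single j]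
    · simp
    · intro i _ hi; rw [if_neg fun h => hi (hbinj h).symm]
    · simp
  have hsupp : G.support ⊆ Finset.univ.image fun j => (b j).val := by
    intro d hd
    by_contra hne
    apply mem_support_iff.1 hd
    simp only [hG, finsetSum_coeff, coeff_C_mul, coeff_X_pow, mul_ite, mul_one, mul_zero]
    exact Finset.sum_eq_zero fun i _ =>
      if_neg fun h => hne (Finset.mem_image.2 ⟨i, Finset.mem_univ _, h.symm⟩)
  have hG0 : G ≠ 0 := fun h => hj (by rw [← hcoeff j, h, coeff_zero, map_zero])
  have hdvd : (Multiset.map (fun x => X - C x)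
      (Finset.univ.image fun i => r ^ (a i).val).val).prod ∣ G := by
    rw [Multiset.prod_X_sub_C_dvd_iff_le_roots hG0]
    refine (Multiset.le_iff_subset (Finset.nodup _)).2 fun x hx => ?_
    obtain ⟨i, -, rfl⟩ := Finset.mem_image.1 hx
    rw [mem_roots hG0, IsRoot, hG, eval_finsetSum]
    refine Eq.trans ?_ (congrFun hw i)
    simp only [Matrix.mulVec, dotProduct, M, Matrix.of_apply, eval_mul, eval_C, eval_pow, eval_X]
    exact Finset.sum_congr rfl fun _ _ => mul_comm _ _
  have hcard : (Finset.univ.image fun i => r ^ (a i).val).card = Fintype.card ι := by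
    refine Finset.card_image_of_injective _ fun x y h => ha (ZMod.val_injective p ?_)
    refine hζ.pow_inj (ZMod.val_lt _) (ZMod.val_lt _) ?_
    simpa [her] using congrArg e h
  have hdvd' : (X - C (1 : ZMod p)) ^ Fintype.card ι ∣ G.map (reduce p) := by
    refine dvd_trans (dvd_of_eq ?_) (map_dvd (mapRingHom (reduce p)) hdvd)
    rw [map_multiset_prod, Multiset.map_map, ← hcard, Finset.card_def,
      ← Multiset.prod_replicate, ← Multiset.map_const']
    congr 1
    refine Multiset.map_congr rfl fun x hx => ?_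
    obtain ⟨i, -, rfl⟩ := Finset.mem_image.1 hx
    simp [r, reduce_root]
  have h0 : G.map (reduce p) ≠ 0 := fun h =>
    hj (by rw [← hcoeff j, ← coeff_map, h, coeff_zero])
  have hsub : (G.map (reduce p)).support ⊆ Finset.univ.image fun j => (b j).val :=
    (support_map_subset _ _).trans hsupp
  have hdeg : (G.map (reduce p)).natDegree < p := by
    obtain ⟨i, -, hi⟩ := Finset.mem_image.1 (hsub (natDegree_mem_support_of_nonzero h0))
    rw [← hi]
    exact ZMod.val_lt _
  have h1 := lt_card_support_of_pow_dvd p (one_ne_zero (α := ZMod p)) _ _ _ le_rfl h0 hdeg hdvd'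
  have h2 := (Finset.card_le_card hsub).trans (Finset.card_image_le (s := Finset.univ))
  rw [Finset.card_univ] at h2
  omega

end Cyclotomic

end Fermat.Agent.ChebotarevMinors
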