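import Fermat.Agent.ChebotarevMinors.Minors
import Mathlib.Analysis.Fourier.ZMod
import Mathlib.LinearAlgebra.FiniteDimensional.Lemmas
import Mathlib.Analysis.Complex.Basic

/-!
# Sparse polynomials at roots of unity and Tao's uncertainty principle
-/

set_option autoImplicit false

noncomputable section

open Polynomial Finset

namespace Fermat.Agent.ChebotarevMinors

variable {p : ℕ} [Fact p.Prime]

/-- If the values of a sparse exponential sum vanish at as many points as it has terms, it is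
zero. -/
theorem eq_zero_of_vanish {K : Type*} [Field K] [CharZero K] {ζ : K} (hζ : IsPrimitiveRoot ζ p)
    {S T : Finset (ZMod p)} (hcard : S.card ≤ T.card) (c : ZMod p → K)
    (h : ∀ k ∈ T, ∑ j ∈ S, ζ ^ (k * j).val * c j = 0) : ∀ j ∈ S, c j = 0 := by
  classical
  obtain ⟨A, hAT, hA⟩ := exists_subset_card_eq hcard
  let e : S ≃ A := equivOfCardEq hA.symm
  have hdet := det_minor_ne_zero p hζ (ι := S) (a := fun i => (e i : ZMod p)) (b := Subtype.val)
    (fun x y hxy => e.injective (Subtype.val_injective hxy)) Subtype.val_injective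
  intro j hj
  have := Matrix.eq_zero_of_mulVec_eq_zero hdet (v := fun i : S => c i) (funext fun i => by
    simp only [Matrix.mulVec, dotProduct, Matrix.of_apply, Pi.zero_apply]
    rw [sum_coe_sort S fun l => ζ ^ ((e i : ZMod p) * l).val * c l]
    exact h _ (hAT (e i).2))
  exact congrFun this ⟨j, hj⟩

/-- A nonzero polynomial of degree less than `p` has fewer roots among the `p`th roots of unity
than terms. -/
theorem card_unity_roots_lt {K : Type*} [Field K] [CharZero K] [DecidableEq K] {ζ : K}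
    (hζ : IsPrimitiveRoot ζ p) {g : K[X]} (hg : g ≠ 0) (hdeg : g.natDegree < p) :
    (univ.filter fun x : ZMod p => g.eval (ζ ^ x.val) = 0).card < g.support.card := by
  by_contra hle
  push Not at hle
  set S : Finset (ZMod p) := g.support.image Nat.cast with hS
  have hlt : ∀ d ∈ g.support, d < p := fun d hd =>
    (le_natDegree_of_ne_zero (mem_support_iff.1 hd)).trans_lt hdeg
  have hinj : Set.InjOn (Nat.cast : ℕ → ZMod p) g.support := fun x hx y hy e => by
    have := congrArg ZMod.val e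
    rwa [ZMod.val_cast_of_lt (hlt x hx), ZMod.val_cast_of_lt (hlt y hy)] at this
  have hz := eq_zero_of_vanish hζ (S := S) ((card_image_le).trans hle) (fun x => g.coeff x.val)
    fun k hk => by
    rw [hS, sum_image hinj, ← (mem_filter.1 hk).2, eval_eq_sum, Polynomial.sum]
    refine sum_congr rfl fun d hd => ?_
    rw [ZMod.val_cast_of_lt (hlt d hd), ← pow_mul, ZMod.val_mul, ZMod.val_cast_of_lt (hlt d hd),
      ← pow_eq_pow_mod _ hζ.pow_eq_one, mul_comm]
  obtain ⟨d, hd⟩ := support_nonempty.2 hg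
  have := hz _ (mem_image_of_mem _ hd)
  rw [ZMod.val_cast_of_lt (hlt d hd)] at this
  exact mem_support_iff.1 hd this

/-- The support of a function on a finite type, as a finset. -/
def supp {α E : Type*} [Fintype α] [Zero E] (f : α → E) : Finset α :=
  (Set.toFinite (Function.support f)).toFinset

theorem mem_supp {α E : Type*} [Fintype α] [Zero E] {f : α → E} {x : α} :
    x ∈ supp f ↔ f x ≠ 0 := by
  simp [supp]

theorem isPrimitiveRoot_stdAddChar :
    IsPrimitiveRoot (ZMod.stdAddChar (-1 : ZMod p)) p := by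
  rw [IsPrimitiveRoot.iff_orderOf]
  refine orderOf_eq_prime ?_ fun h => ?_
  · rw [← AddChar.map_nsmul_eq_pow]
    simp
  · exact neg_ne_zero.2 (one_ne_zero : (1 : ZMod p) ≠ 0)
      (ZMod.injective_stdAddChar (h.trans (AddChar.map_zero_eq_one _).symm))

theorem stdAddChar_neg_eq_pow (x : ZMod p) :
    ZMod.stdAddChar (-x) = ZMod.stdAddChar (-1 : ZMod p) ^ x.val := by
  rw [← AddChar.map_nsmul_eq_pow]
  simp

theorem dft_eq_sum_supp (f : ZMod p → ℂ) (k : ZMod p) :
    ZMod.dft f k = ∑ j ∈ supp f, ZMod.stdAddChar (-1 : ZMod p) ^ (k * j).val * f j := by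
  rw [ZMod.dft_apply]
  refine (sum_subset (subset_univ _) fun j _ hj => ?_).symm.trans (sum_congr rfl fun j _ => ?_)
  · rw [mem_supp, not_not] at hj
    simp [hj]
  · rw [smul_eq_mul, stdAddChar_neg_eq_pow, mul_comm j k]

/-- **Tao's uncertainty principle**: on a group of prime order `p`, the supports of a nonzero
function and of its Fourier transform have total size at least `p + 1`. -/
theorem uncertainty {f : ZMod p → ℂ} (hf : f ≠ 0) :
    p + 1 ≤ (supp f).card + (supp (ZMod.dft f)).card := by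
  by_contra hle
  have hc : (supp f).card ≤ (supp (ZMod.dft f))ᶜ.card := by
    rw [card_compl, ZMod.card]
    omega
  have hz := eq_zero_of_vanish (isPrimitiveRoot_stdAddChar (p := p)) hc f fun k hk => by
    rw [← dft_eq_sum_supp]
    rw [mem_compl, mem_supp, not_not] at hk
    exact hk
  obtain ⟨x, hx⟩ := Function.ne_iff.1 hf
  exact hx (hz x (mem_supp.2 hx))

/-- The extremal case: supports of total size `p + 1` are attained. -/
theorem exists_supp_eq_of_card_eq {A B : Finset (ZMod p)} (h : A.card + B.card = p + 1) :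
    ∃ f : ZMod p → ℂ, supp f = A ∧ supp (ZMod.dft f) = B := by
  classical
  let ext0 : (A → ℂ) →ₗ[ℂ] (ZMod p → ℂ) :=
    { toFun := fun c x => if hx : x ∈ A then c ⟨x, hx⟩ else 0
      map_add' := fun c d => by funext x; by_cases hx : x ∈ A <;> simp [hx]
      map_smul' := fun r c => by funext x; by_cases hx : x ∈ A <;> simp [hx] }
  let L : (A → ℂ) →ₗ[ℂ] ((Bᶜ : Finset (ZMod p)) → ℂ) :=
    LinearMap.funLeft ℂ ℂ Subtype.val ∘ₗ (ZMod.dft : (ZMod p → ℂ) ≃ₗ[ℂ] _).toLinearMap ∘ₗ ext0
  have hlt : Module.finrank ℂ ((Bᶜ : Finset (ZMod p)) → ℂ) < Module.finrank ℂ (A → ℂ) := by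
    rw [Module.finrank_fintype_fun_eq_card, Module.finrank_fintype_fun_eq_card,
      Fintype.card_coe, Fintype.card_coe, card_compl, ZMod.card]
    have := card_le_univ B
    rw [ZMod.card] at this
    omega
  obtain ⟨c, hc, hc0⟩ := Submodule.exists_mem_ne_zero_of_ne_bot
    (LinearMap.ker_ne_bot_of_finrank_lt hlt (f := L))
  have hA : supp (ext0 c) ⊆ A := fun x hx => by
    by_contra hxA
    exact mem_supp.1 hx (dif_neg hxA)
  have hB : supp (ZMod.dft (ext0 c)) ⊆ B := fun k hk => by
    by_contra hkB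
    exact mem_supp.1 hk (congrFun (LinearMap.mem_ker.1 hc) ⟨k, mem_compl.2 hkB⟩)
  have h0 : ext0 c ≠ 0 := fun e => hc0 (funext fun x => by
    simpa [ext0, x.2] using congrFun e x.1)
  have := uncertainty h0
  have := card_le_card hA
  have := card_le_card hB
  exact ⟨ext0 c, eq_of_subset_of_card_le hA (by omega), eq_of_subset_of_card_le hB (by omega)⟩

/-- Every pair of sets allowed by the uncertainty principle is attained. -/
theorem exists_supp_eq {A B : Finset (ZMod p)} (h : p + 1 ≤ A.card + B.card) :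
    ∃ f : ZMod p → ℂ, supp f = A ∧ supp (ZMod.dft f) = B := by
  classical
  have hA := card_le_univ A
  have hB := card_le_univ B
  rw [ZMod.card] at hA hB
  have key : ∀ y ∈ B, ∃ f : ZMod p → ℂ,
      supp f = A ∧ supp (ZMod.dft f) ⊆ B ∧ y ∈ supp (ZMod.dft f) := by
    intro y hy
    obtain ⟨B', h1, h2, h3⟩ := exists_subsuperset_card_eq (singleton_subset_iff.2 hy)
      (n := p + 1 - A.card) (by rw [card_singleton]; omega) (by omega)
    obtain ⟨f, hf, hf'⟩ := exists_supp_eq_of_card_eq (A := A) (B := B') (by omega)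
    exact ⟨f, hf, hf'.symm ▸ h2, hf'.symm ▸ h1 (mem_singleton_self y)⟩
  choose! F hF1 hF2 hF3 using key
  obtain ⟨y₀, hy₀⟩ : B.Nonempty := card_pos.1 (by omega)
  let P : (ZMod p → ℂ) → ℂ[X] := fun v => ∑ y ∈ B, C (v y) * X ^ y.val
  have hP : ∀ (v : ZMod p → ℂ), ∀ y ∈ B, v y ≠ 0 → P v ≠ 0 := by
    intro v y hy hvy h0
    refine hvy ?_
    have := congrArg (coeff · y.val) h0
    simpa [P, finsetSum_coeff, coeff_X_pow, (ZMod.val_injective p).eq_iff, hy] using this
  have hQ0 : (∏ x ∈ A, P fun y => F y x) * ∏ z ∈ B, P (fun y => ZMod.dft (F y) z) ≠ 0 := by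
    refine mul_ne_zero (prod_ne_zero_iff.2 fun x hx => hP _ y₀ hy₀ ?_)
      (prod_ne_zero_iff.2 fun z hz => hP _ z hz ?_)
    · exact mem_supp.1 (hF1 y₀ hy₀ ▸ hx)
    · exact mem_supp.1 (hF3 z hz)
  obtain ⟨t, ht⟩ : ∃ t : ℂ, ((∏ x ∈ A, P fun y => F y x) *
      ∏ z ∈ B, P (fun y => ZMod.dft (F y) z)).eval t ≠ 0 := by
    by_contra hno
    push Not at hno
    exact hQ0 (Polynomial.funext fun t => by simpa using hno t)
  have heval : ∀ v : ZMod p → ℂ, (P v).eval t = ∑ y ∈ B, t ^ y.val * v y := fun v => by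
    simp only [P, eval_finsetSum, eval_mul, eval_C, eval_pow, eval_X]
    exact sum_congr rfl fun _ _ => mul_comm _ _
  rw [eval_mul, eval_prod, eval_prod, mul_ne_zero_iff, prod_ne_zero_iff, prod_ne_zero_iff] at ht
  refine ⟨∑ y ∈ B, t ^ y.val • F y, ?_, ?_⟩
  · ext x
    rw [mem_supp, Finset.sum_apply]
    simp only [Pi.smul_apply, smul_eq_mul]
    refine ⟨fun hx => ?_, fun hx => ?_⟩
    · obtain ⟨y, hy, hne⟩ := exists_ne_zero_of_sum_ne_zero hx
      rw [← hF1 y hy, mem_supp]
      exact right_ne_zero_of_mul hne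
    · rw [← heval]
      exact ht.1 x hx
  · ext z
    rw [mem_supp, map_sum, Finset.sum_apply]
    simp only [map_smul, Pi.smul_apply, smul_eq_mul]
    refine ⟨fun hz => ?_, fun hz => ?_⟩
    · obtain ⟨y, hy, hne⟩ := exists_ne_zero_of_sum_ne_zero hz
      exact hF2 y hy (mem_supp.2 (right_ne_zero_of_mul hne))
    · rw [← heval]
      exact ht.2 z hz

/-- The statement fails for composite orders. -/
theorem uncertainty_fails_four :
    ∃ f : ZMod 4 → ℂ, f ≠ 0 ∧ (supp f).card + (supp (ZMod.dft f)).card ≤ 4 := by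
  classical
  have h2 : ZMod.stdAddChar (2 : ZMod 4) = (-1 : ℂ) := by
    have h : ZMod.stdAddChar (2 : ZMod 4) * ZMod.stdAddChar (2 : ZMod 4) = (1 : ℂ) := by
      rw [← AddChar.map_add_eq_mul, show (2 : ZMod 4) + 2 = 0 from rfl, AddChar.map_zero_eq_one]
    refine (mul_self_eq_one_iff.1 h).resolve_left fun e => ?_
    exact absurd (ZMod.injective_stdAddChar (e.trans (AddChar.map_zero_eq_one _).symm))
      (by decide : (2 : ZMod 4) ≠ 0)
  refine ⟨fun x => if x = 0 ∨ x = 2 then 1 else 0,
    fun h => by simpa using congrFun h 0, ?_⟩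
  have h1 : supp (fun x : ZMod 4 => if x = 0 ∨ x = 2 then (1 : ℂ) else 0) ⊆ {0, 2} := fun x hx => by
    simpa [mem_supp, or_iff_not_imp_left] using hx
  have h3 : supp (ZMod.dft fun x : ZMod 4 => if x = 0 ∨ x = 2 then (1 : ℂ) else 0) ⊆ {0, 2} := by
    intro k hk
    rw [mem_supp, ZMod.dft_apply] at hk
    have e : ({0, 2} : Finset (ZMod 4)) = univ.filter fun x => x = 0 ∨ x = 2 := by decide
    simp only [smul_eq_mul, mul_ite, mul_one, mul_zero] at hk
    rw [← sum_filter, ← e, sum_pair (by decide), zero_mul, neg_zero, AddChar.map_zero_eq_one] at hk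
    have hcases : k = 0 ∨ k = 1 ∨ k = 2 ∨ k = 3 :=
      (by decide : ∀ k : ZMod 4, k = 0 ∨ k = 1 ∨ k = 2 ∨ k = 3) k
    rcases hcases with rfl | rfl | rfl | rfl
    · simp
    · rw [show -((2 : ZMod 4) * 1) = 2 from rfl, h2, add_neg_cancel] at hk
      exact absurd rfl hk
    · simp
    · rw [show -((2 : ZMod 4) * 3) = 2 from rfl, h2, add_neg_cancel] at hk
      exact absurd rfl hk
  exact (Nat.add_le_add (card_le_card h1) (card_le_card h3)).trans (by decide)

end Fermat.Agent.ChebotarevMinors
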